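/-
Programme T1B (row 38 via S44), cell J-BRIDGE (owner helper66), brick (B3), part "ACTION" (helper54):
**the action of a group `G` on `Pic X_A` by plain functoriality**, for a `W`-LINEAR action of `G` on
a `W`-algebra `A` (in the application: `G = I_p` the local inertia group, `A = ℚ̄_p`, `W = A ∩ K`
with `K` an inertial number field, so that inertia fixes `W` pointwise), on top of helper44's
`T1/GalAct44` with the TRIVIAL chart action.

* `idChartAut c0` : the identity automorphism of the chart system; `ChartAut.ext'`,
  `mapSemi_congr_aut` (`PicX.mapSemi` only depends on the components of the chart automorphism);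
* `trivChartAction c0 G : ChartAction c0 G` : every `g` acts on the charts by the identity;
* `semiActionOfLinear c0 G A : SemiAction (trivChartAction c0 G) A` from
  `[MulSemiringAction G A] [SMulCommClass G W A]`;
* `actPicLin c0 g : PicX c0 A →* PicX c0 A` (`= PicX.mapSemi (idChartAut c0) (toRingHom g)`),
  `actPicLin_one`, `actPicLin_mul`;
* `picDistribMulAction c0 G A : DistribMulAction G (Additive (PicX c0 A))` (a reducible def, to be
  installed as a local instance), `smul_ofMul`;
* `smul_mem_picPt` : the subgroup generated by the classes of `A`-points is stable;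
* `map_smul_of_equivariant` : base change along an equivariant `W`-algebra map is equivariant;
* `map_mapSemi_eq_smul` (**abstract `j_res`**): for `L → Ω` a `W`-algebra map, `σL : L →+* L`
  `W`-linear and `g` acting on `Ω` with `g • (algebraMap L Ω a) = algebraMap L Ω (σL a)`:
  `ofMul (PicX.map c0 L Ω (PicX.mapSemi S σL _ x)) = g • ofMul (PicX.map c0 L Ω x)` for every chart
  automorphism `S` with identity components; `bridge_res` : the same for `j = ofMul ∘ map ∘ d`.
-/
import Mathlib
import Fermat.Agent.T1.GalAct44

set_option autoImplicit false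
set_option linter.unusedSectionVars false
set_option linter.style.haveILetI false

open TensorProduct

noncomputable section

namespace Fermat.Agent.T1B.Bridge54.IpAction

open Fermat.Agent.Jac Fermat.Agent.Jac.JSmooth85Alg Fermat.Agent.Jac.JGroup85Pic
open Fermat.Agent.Jac.BaseChange75 Fermat.Agent.T1.RedIface75
open Fermat.Agent.T1.PtLine75 Fermat.Agent.T1.GalAct44
open scoped Fermat.Agent.Jac.BaseChange75

universe u v

variable {W B0 B1 B01 : Type u} [CommRing W] [CommRing B0] [CommRing B1] [CommRing B01]
  [Algebra W B0] [Algebra W B1] [Algebra W B01] [Algebra B0 B01] [Algebra B1 B01]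
  [IsScalarTower W B0 B01] [IsScalarTower W B1 B01]

/-! ### The identity chart automorphism -/

/-- The identity automorphism of the chart system. -/
def idChartAut (c0 : TwoChart W B0 B1 B01) : ChartAut c0 where
  σW := RingHom.id W
  σ0 := RingHom.id B0
  σ1 := RingHom.id B1
  σ01 := RingHom.id B01
  semi0 := fun _ _ => rfl
  semi1 := fun _ _ => rfl
  semi01 := fun _ _ => rfl
  comm0 := fun _ => rfl
  comm1 := fun _ => rfl
  map_t := rfl
  map_s := rfl

@[simp] theorem idChartAut_σW (c0 : TwoChart W B0 B1 B01) : (idChartAut c0).σW = RingHom.id W := rfl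
@[simp] theorem idChartAut_σ0 (c0 : TwoChart W B0 B1 B01) : (idChartAut c0).σ0 = RingHom.id B0 := rfl
@[simp] theorem idChartAut_σ1 (c0 : TwoChart W B0 B1 B01) : (idChartAut c0).σ1 = RingHom.id B1 := rfl
@[simp] theorem idChartAut_σ01 (c0 : TwoChart W B0 B1 B01) :
    (idChartAut c0).σ01 = RingHom.id B01 := rfl

/-- Two chart automorphisms with the same components are equal. -/
theorem ChartAut.ext' {c0 : TwoChart W B0 B1 B01} {S S' : ChartAut c0} (hW : S.σW = S'.σW)
    (h0 : S.σ0 = S'.σ0) (h1 : S.σ1 = S'.σ1) (h01 : S.σ01 = S'.σ01) : S = S' := by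
  cases S
  cases S'
  simp only at hW h0 h1 h01
  subst hW h0 h1 h01
  rfl

/-- A chart automorphism with identity components is `idChartAut`. -/
theorem eq_idChartAut {c0 : TwoChart W B0 B1 B01} {S : ChartAut c0} (hW : S.σW = RingHom.id W)
    (h0 : S.σ0 = RingHom.id B0) (h1 : S.σ1 = RingHom.id B1) (h01 : S.σ01 = RingHom.id B01) :
    S = idChartAut c0 :=
  ChartAut.ext' hW h0 h1 h01

/-- `PicX.mapSemi` only depends on the chart automorphism through its components. -/
theorem mapSemi_congr_aut {c0 : TwoChart W B0 B1 B01} {S S' : ChartAut c0} (h : S = S')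
    {A A' : Type u} [CommRing A] [CommRing A'] [Algebra W A] [Algebra W A'] (f : A →+* A')
    (hf : ∀ (w : W) (a : A), f (w • a) = S.σW w • f a)
    (hf' : ∀ (w : W) (a : A), f (w • a) = S'.σW w • f a) (x : PicX c0 A) :
    PicX.mapSemi S f hf x = PicX.mapSemi S' f hf' x := by
  subst h
  rfl

/-! ### The trivial chart action and linear actions -/

/-- **The trivial action of `G` on the chart system.** -/
def trivChartAction (c0 : TwoChart W B0 B1 B01) (G : Type v) [Group G] : ChartAction c0 G where
  S := fun _ => idChartAut c0
  oneW := rfl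
  one0 := rfl
  one1 := rfl
  one01 := rfl
  mulW := fun _ _ => rfl
  mul0 := fun _ _ => rfl
  mul1 := fun _ _ => rfl
  mul01 := fun _ _ => rfl

@[simp] theorem trivChartAction_S (c0 : TwoChart W B0 B1 B01) (G : Type v) [Group G] (g : G) :
    (trivChartAction c0 G).S g = idChartAut c0 := rfl

section Linear

variable (c0 : TwoChart W B0 B1 B01) (G : Type v) [Group G]
  (A : Type u) [CommRing A] [Algebra W A] [MulSemiringAction G A] [SMulCommClass G W A]

/-- **A `W`-linear action of `G` on `A` by ring automorphisms is a `SemiAction`** over the trivial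
chart action. -/
def semiActionOfLinear : SemiAction (trivChartAction c0 G) A where
  f := fun g => MulSemiringAction.toRingHom G A g
  one := RingHom.ext fun a => one_smul G a
  mul := fun g h => RingHom.ext fun a => mul_smul g h a
  semi := fun g w a => smul_comm g w a

@[simp] theorem semiActionOfLinear_f (g : G) (a : A) :
    (semiActionOfLinear c0 G A).f g a = g • a := rfl

variable {G A}

/-- `g` acts `W`-linearly. -/
theorem toRingHom_semi (g : G) (w : W) (a : A) :
    MulSemiringAction.toRingHom G A g (w • a) =
      (idChartAut c0).σW w • MulSemiringAction.toRingHom G A g a :=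
  smul_comm g w a

/-- **The action of `g` on `Pic X_A`**, by plain functoriality. -/
def actPicLin (g : G) : PicX c0 A →* PicX c0 A :=
  actPic (trivChartAction c0 G) (semiActionOfLinear c0 G A) g

theorem actPicLin_apply (g : G) (x : PicX c0 A) :
    actPicLin c0 g x =
      PicX.mapSemi (idChartAut c0) (MulSemiringAction.toRingHom G A g) (toRingHom_semi c0 g) x :=
  rfl

theorem actPicLin_one (x : PicX c0 A) : actPicLin c0 (1 : G) x = x :=
  actPic_one_apply _ _ x

theorem actPicLin_mul (g h : G) (x : PicX c0 A) :
    actPicLin c0 (g * h) x = actPicLin c0 g (actPicLin c0 h x) :=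
  actPic_mul_apply _ _ g h x

variable (G A)

/-- **The action of `G` on `Pic X_A`** (additive notation), for a `W`-linear action of `G` on `A`.
A reducible definition: install it as a local instance. -/
@[reducible] def picDistribMulAction : DistribMulAction G (Additive (PicX c0 A)) where
  smul g x := Additive.ofMul (actPicLin c0 g (Additive.toMul x))
  one_smul x := by
    show Additive.ofMul (actPicLin c0 (1 : G) (Additive.toMul x)) = x
    rw [actPicLin_one]
    rfl
  mul_smul g h x := by
    show Additive.ofMul (actPicLin c0 (g * h) (Additive.toMul x)) =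
      Additive.ofMul (actPicLin c0 g (Additive.toMul (Additive.ofMul
        (actPicLin c0 h (Additive.toMul x)))))
    rw [actPicLin_mul]
    rfl
  smul_zero g := by
    show Additive.ofMul (actPicLin c0 g (Additive.toMul (0 : Additive (PicX c0 A)))) = 0
    rw [toMul_zero, map_one]
    rfl
  smul_add g x y := by
    show Additive.ofMul (actPicLin c0 g (Additive.toMul (x + y))) =
      Additive.ofMul (actPicLin c0 g (Additive.toMul x)) +
        Additive.ofMul (actPicLin c0 g (Additive.toMul y))
    rw [toMul_add, map_mul]
    rfl

variable {G A}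

/-- the definition of the action. -/
theorem smul_ofMul (g : G) (x : PicX c0 A) :
    letI := picDistribMulAction c0 G A
    g • (Additive.ofMul x : Additive (PicX c0 A)) = Additive.ofMul (actPicLin c0 g x) := rfl

theorem toMul_smul (g : G) (x : Additive (PicX c0 A)) :
    letI := picDistribMulAction c0 G A
    Additive.toMul (g • x) = actPicLin c0 g (Additive.toMul x) := rfl

/-- **The subgroup generated by the classes of `A`-points is stable.** -/
theorem actPicLin_mem_picPt (g : G) {x : PicX c0 A} (hx : x ∈ (pointClasses c0).PicPt A) :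
    actPicLin c0 g x ∈ (pointClasses c0).PicPt A :=
  actPic_mem_picPt _ _ g hx

/-- the same in additive notation. -/
theorem smul_mem_picPt (g : G) {x : Additive (PicX c0 A)}
    (hx : Additive.toMul x ∈ (pointClasses c0).PicPt A) :
    letI := picDistribMulAction c0 G A
    Additive.toMul (g • x) ∈ (pointClasses c0).PicPt A :=
  actPicLin_mem_picPt c0 g hx

end Linear

/-! ### Naturality -/

section Natural

variable (c0 : TwoChart W B0 B1 B01) {G : Type v} [Group G]
  {A A1 : Type u} [CommRing A] [CommRing A1] [Algebra W A] [Algebra W A1] [Algebra A A1]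
  [IsScalarTower W A A1] [MulSemiringAction G A] [SMulCommClass G W A]
  [MulSemiringAction G A1] [SMulCommClass G W A1]

/-- **Base change along an equivariant `W`-algebra map is equivariant.** -/
theorem map_actPicLin (hc : ∀ (g : G) (a : A), g • algebraMap A A1 a = algebraMap A A1 (g • a))
    (g : G) (x : PicX c0 A) :
    PicX.map c0 A A1 (actPicLin c0 g x) = actPicLin c0 g (PicX.map c0 A A1 x) :=
  map_actPic (trivChartAction c0 G) (semiActionOfLinear c0 G A) (semiActionOfLinear c0 G A1)
    hc g x

/-- the same in additive notation. -/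
theorem map_smul_of_equivariant
    (hc : ∀ (g : G) (a : A), g • algebraMap A A1 a = algebraMap A A1 (g • a))
    (g : G) (x : Additive (PicX c0 A)) :
    letI := picDistribMulAction c0 G A
    letI := picDistribMulAction c0 G A1
    Additive.ofMul (PicX.map c0 A A1 (Additive.toMul (g • x))) =
      g • (Additive.ofMul (PicX.map c0 A A1 (Additive.toMul x)) : Additive (PicX c0 A1)) :=
  congrArg Additive.ofMul (map_actPicLin c0 hc g (Additive.toMul x))

end Natural

/-! ### The abstract `j_res` -/

section Res

variable (c0 : TwoChart W B0 B1 B01) {G : Type v} [Group G]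
  {L Ω : Type u} [CommRing L] [CommRing Ω] [Algebra W L] [Algebra W Ω] [Algebra L Ω]
  [IsScalarTower W L Ω] [MulSemiringAction G Ω] [SMulCommClass G W Ω]

/-- **The mixed square for the action on the top**: if `σL : L →+* L` is `W`-linear and `g` acts on
`Ω` compatibly (`g • ι a = ι (σL a)`), then base change `L → Ω` intertwines `PicX.mapSemi S σL`
(`S` any chart automorphism with identity components) with the action of `g`. -/
theorem map_mapSemi_eq_actPicLin (S : ChartAut c0) (hW : S.σW = RingHom.id W)
    (h0 : S.σ0 = RingHom.id B0) (h1 : S.σ1 = RingHom.id B1) (h01 : S.σ01 = RingHom.id B01)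
    (σL : L →+* L) (hσL : ∀ (w : W) (a : L), σL (w • a) = S.σW w • σL a) (g : G)
    (hg : ∀ a : L, g • algebraMap L Ω a = algebraMap L Ω (σL a)) (x : PicX c0 L) :
    PicX.map c0 L Ω (PicX.mapSemi S σL hσL x) = actPicLin c0 g (PicX.map c0 L Ω x) := by
  have hS : S = idChartAut c0 := eq_idChartAut hW h0 h1 h01
  subst hS
  rw [actPicLin_apply]
  exact Fermat.Agent.T1.Red20.BcSquare.PicX.map_mapSemi_sq (idChartAut c0) σL hσL
    (MulSemiringAction.toRingHom G Ω g) (toRingHom_semi c0 g)
    (RingHom.ext fun a => hg a) x

/-- **Abstract `j_res`.**  Let `d : X → PicX c0 L` be a map from a set with an operator `s : X → X`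
such that `d (s x) = PicX.mapSemi S σL _ (d x)` (clause (v) of the dictionary: `s` = the action of
`σ ∈ G_ℚ` fixing `K`, `σL = σ|_L`), and let `g` act on `Ω` compatibly with `σL`.  Then
`j := ofMul ∘ PicX.map c0 L Ω ∘ d` satisfies `j (s x) = g • j x`. -/
theorem bridge_res {X : Type*} (d : X → PicX c0 L) (s : X → X)
    (S : ChartAut c0) (hW : S.σW = RingHom.id W)
    (h0 : S.σ0 = RingHom.id B0) (h1 : S.σ1 = RingHom.id B1) (h01 : S.σ01 = RingHom.id B01)
    (σL : L →+* L) (hσL : ∀ (w : W) (a : L), σL (w • a) = S.σW w • σL a)
    (hd : ∀ x, d (s x) = PicX.mapSemi S σL hσL (d x)) (g : G)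
    (hg : ∀ a : L, g • algebraMap L Ω a = algebraMap L Ω (σL a)) (x : X) :
    letI := picDistribMulAction c0 G Ω
    (Additive.ofMul (PicX.map c0 L Ω (d (s x))) : Additive (PicX c0 Ω)) =
      g • Additive.ofMul (PicX.map c0 L Ω (d x)) := by
  rw [hd x, map_mapSemi_eq_actPicLin c0 S hW h0 h1 h01 σL hσL g hg (d x)]
  rfl

end Res

end Fermat.Agent.T1B.Bridge54.IpAction
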