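/-
Programme T1B (row 38 via S44), cell J-BRIDGE (owner helper66), brick (B3) "ACTION", part 2 (helper54):
**the INSTANCES of `Bridge54/IpAction.lean` for the local inertia group** `I_p = Ip p ≤ G_p`, on top of
helper66's `Local66/LocalBase.lean` and `Local66/Union.lean`.

Fixed: `p`, `K` a number field with `hK : InertFixed (padicPlace p) K` (an INERTIAL field),
`W = Wb p K`, `c0 : TwoChart W B0 B1 B01` any two-chart datum over `W` (the nodal hub).

(1) TOP: `mulSemiringActionKbar p` (Mathlib's instance under a name), `smul_Kbar` (rfl),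
    `smulCommClass_W_Kbar hK`, **`actTop c0 hK : DistribMulAction ↥(Ip p) (Atop p K c0)`** (the `actA` of
    `LocalGeom` v5), `gTop c0 hK τ : PicTop p K c0 →* PicTop p K c0` its multiplicative form
    (`actTop_smul`, `gTop_apply`, `gTop_one`, `gTop_mul`), `smul_mem_picPt_top`.
(2) LEVELS, `E : NLevel p K`: `mulSemiringActionO E`, `mulSemiringActionE E` (through `galO`, `galE`),
    `smulCommClass_W_O E hK`, `smulCommClass_W_E E hK`, `actO c0 E hK`, `actE c0 E hK`, `gO`, `gE`.
(3) EQUIVARIANCE of `bcO`, `bcE`, `bcOE`, `bcOO hE`, `bcEE hE` (`bcO_gO`, … multiplicative;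
    `bcO_smul`, … additive).
(4) INERTIA ACTS TRIVIALLY ON THE RESIDUE FIELD: `mem_maximalIdeal_of_norm_lt_one`,
    `galO_sub_mem_maximalIdeal`, `residue_galO`, and **`red_gO`** :
    `red c0 O_E (gO c0 E hK τ y) = red c0 O_E y`  (the hypothesis `red ∘ gO = red` of
    `RedN3.InertiaInvariant`), `gO_mem_J1`.
-/
import Mathlib
import Fermat.Agent.T1B.Bridge54.IpAction
import Fermat.Agent.T1B.Local66.Union

set_option autoImplicit false
set_option linter.unusedSectionVars false
set_option linter.style.haveILetI false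
set_option synthInstance.maxHeartbeats 400000
set_option maxHeartbeats 1000000

open Fermat.Agent.TW.B5.Iface Fermat.Agent.RED.Interface4 Fermat.Agent.T1.HubInst98
open Fermat.Agent.T1.IntSub47 Fermat.Agent.Jac Fermat.Agent.T1.RedIface75
open Fermat.Agent.T1.PtLine75
open Fermat.Agent.T1B.Local66.LocalBase Fermat.Agent.T1B.Local66.Union
open Fermat.Agent.T1B.Plumb66.Inertia (Ip mem_Ip)
open Fermat.Agent.T1B.Bridge54.IpAction
open Fermat.Agent.ES.P36.InertField27 (InertFixed)

noncomputable section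

namespace Fermat.Agent.T1B.Bridge54.IpInst

variable (p : ℕ) [Fact p.Prime] (K : IntermediateField ℚ Qbar)

/-! ### (1) The top level `ℚ̄_p` -/

/-- The action of the inertia group on `ℚ̄_p` (Mathlib's instance, under a name). -/
@[reducible] def mulSemiringActionKbar : MulSemiringAction ↥(Ip p) (Kbar p) := inferInstance

variable {p}

theorem smul_Kbar (τ : ↥(Ip p)) (x : Kbar p) : τ • x = (τ : Gp p) x := rfl

variable {K}

/-- **Inertia acts `W`-linearly on `ℚ̄_p`** (`K` inertial). -/
theorem smulCommClass_W_Kbar (hK : InertFixed (padicPlace p) K) :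
    letI := algWKbar p K
    SMulCommClass ↥(Ip p) (Wb p K) (Kbar p) := by
  letI := algWKbar p K
  refine ⟨fun τ w a => ?_⟩
  show (τ : Gp p) (w • a) = w • (τ : Gp p) a
  rw [Algebra.smul_def, Algebra.smul_def, map_mul]
  congr 1
  exact inertia_iotaW p K hK τ w

section Charts

variable {B0 B1 B01 : Type} [CommRing B0] [CommRing B1] [CommRing B01]
  [Algebra (Wb p K) B0] [Algebra (Wb p K) B1] [Algebra (Wb p K) B01] [Algebra B0 B01]
  [Algebra B1 B01] [IsScalarTower (Wb p K) B0 B01] [IsScalarTower (Wb p K) B1 B01]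
  (c0 : TwoChart (Wb p K) B0 B1 B01)

/-- **The action of the inertia group on `A = Pic X_{ℚ̄_p}`** (the `actA` of `LocalGeom`). -/
@[reducible] def actTop (hK : InertFixed (padicPlace p) K) :
    DistribMulAction ↥(Ip p) (Atop p K c0) :=
  letI := algWKbar p K
  haveI := smulCommClass_W_Kbar hK
  picDistribMulAction c0 ↥(Ip p) (Kbar p)

/-- The action of `τ` on `Pic X_{ℚ̄_p}`, multiplicatively. -/
def gTop (hK : InertFixed (padicPlace p) K) (τ : ↥(Ip p)) : PicTop p K c0 →* PicTop p K c0 :=
  letI := algWKbar p K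
  haveI := smulCommClass_W_Kbar hK
  actPicLin c0 τ

theorem actTop_smul (hK : InertFixed (padicPlace p) K) (τ : ↥(Ip p)) (x : Atop p K c0) :
    letI := actTop c0 hK
    τ • x = Additive.ofMul (gTop c0 hK τ (Additive.toMul x)) := rfl

theorem actTop_smul_ofMul (hK : InertFixed (padicPlace p) K) (τ : ↥(Ip p)) (x : PicTop p K c0) :
    letI := actTop c0 hK
    τ • (Additive.ofMul x : Atop p K c0) = Additive.ofMul (gTop c0 hK τ x) := rfl

/-- `τ` is `W`-linear on `ℚ̄_p`. -/
theorem gal_semi (hK : InertFixed (padicPlace p) K) (τ : ↥(Ip p)) :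
    letI := algWKbar p K
    ∀ (w : Wb p K) (a : Kbar p), (((τ : Gp p) : Kbar p ≃+* Kbar p) : Kbar p →+* Kbar p) (w • a) =
      (idChartAut c0).σW w • (((τ : Gp p) : Kbar p ≃+* Kbar p) : Kbar p →+* Kbar p) a := by
  letI := algWKbar p K
  haveI := smulCommClass_W_Kbar hK
  exact fun w a => smul_comm τ w a

/-- `gTop` is `PicX.mapSemi` of the identity chart automorphism along `τ`. -/
theorem gTop_apply (hK : InertFixed (padicPlace p) K) (τ : ↥(Ip p)) (x : PicTop p K c0) :
    letI := algWKbar p K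
    gTop c0 hK τ x = PicX.mapSemi (idChartAut c0)
      (((τ : Gp p) : Kbar p ≃+* Kbar p) : Kbar p →+* Kbar p) (gal_semi c0 hK τ) x := rfl

theorem gTop_one (hK : InertFixed (padicPlace p) K) (x : PicTop p K c0) :
    gTop c0 hK 1 x = x := by
  letI := algWKbar p K
  haveI := smulCommClass_W_Kbar hK
  exact actPicLin_one c0 x

theorem gTop_mul (hK : InertFixed (padicPlace p) K) (σ τ : ↥(Ip p)) (x : PicTop p K c0) :
    gTop c0 hK (σ * τ) x = gTop c0 hK σ (gTop c0 hK τ x) := by
  letI := algWKbar p K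
  haveI := smulCommClass_W_Kbar hK
  exact actPicLin_mul c0 σ τ x

/-- The subgroup generated by the classes of `ℚ̄_p`-points is stable under inertia. -/
theorem gTop_mem_picPt (hK : InertFixed (padicPlace p) K) (τ : ↥(Ip p)) {x : PicTop p K c0}
    (hx : letI := algWKbar p K; x ∈ (pointClasses c0).PicPt (Kbar p)) :
    letI := algWKbar p K
    gTop c0 hK τ x ∈ (pointClasses c0).PicPt (Kbar p) := by
  letI := algWKbar p K
  haveI := smulCommClass_W_Kbar hK
  exact actPicLin_mem_picPt c0 τ hx

/-! ### (2) The finite levels -/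

variable (E : NLevel p K)

/-- The action of the inertia group on `O_E` (`E` a normal level). -/
@[reducible] def mulSemiringActionO : MulSemiringAction ↥(Ip p) ↥(intSubring p E.E) where
  smul τ y := galO E.nor (τ : Gp p) y
  one_smul y := galO_one E.nor y
  mul_smul σ τ y := galO_mul E.nor (σ : Gp p) (τ : Gp p) y
  smul_zero τ := map_zero (galO E.nor (τ : Gp p))
  smul_add τ x y := map_add (galO E.nor (τ : Gp p)) x y
  smul_one τ := map_one (galO E.nor (τ : Gp p))
  smul_mul τ x y := map_mul (galO E.nor (τ : Gp p)) x y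

/-- The action of the inertia group on `E` (a normal level). -/
@[reducible] def mulSemiringActionE : MulSemiringAction ↥(Ip p) ↥E.E where
  smul τ y := galE E.nor (τ : Gp p) y
  one_smul y := galE_one E.nor y
  mul_smul σ τ y := galE_mul E.nor (σ : Gp p) (τ : Gp p) y
  smul_zero τ := map_zero (galE E.nor (τ : Gp p))
  smul_add τ x y := map_add (galE E.nor (τ : Gp p)) x y
  smul_one τ := map_one (galE E.nor (τ : Gp p))
  smul_mul τ x y := map_mul (galE E.nor (τ : Gp p)) x y

theorem smul_O (τ : ↥(Ip p)) (y : ↥(intSubring p E.E)) :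
    letI := mulSemiringActionO E
    τ • y = galO E.nor (τ : Gp p) y := rfl

theorem smul_E (τ : ↥(Ip p)) (y : ↥E.E) :
    letI := mulSemiringActionE E
    τ • y = galE E.nor (τ : Gp p) y := rfl

/-- Inertia acts `W`-linearly on `O_E`. -/
theorem smulCommClass_W_O (hK : InertFixed (padicPlace p) K) :
    letI := algWO E.lev
    letI := mulSemiringActionO E
    SMulCommClass ↥(Ip p) (Wb p K) ↥(intSubring p E.E) := by
  letI := algWO E.lev
  letI := mulSemiringActionO E
  refine ⟨fun τ w a => ?_⟩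
  show galO E.nor (τ : Gp p) (w • a) = w • galO E.nor (τ : Gp p) a
  rw [Algebra.smul_def, Algebra.smul_def, map_mul]
  congr 1
  exact galO_toO hK E.lev E.nor τ w

/-- Inertia acts `W`-linearly on `E`. -/
theorem smulCommClass_W_E (hK : InertFixed (padicPlace p) K) :
    letI := algWE E.lev
    letI := mulSemiringActionE E
    SMulCommClass ↥(Ip p) (Wb p K) ↥E.E := by
  letI := algWE E.lev
  letI := mulSemiringActionE E
  refine ⟨fun τ w a => ?_⟩
  show galE E.nor (τ : Gp p) (w • a) = w • galE E.nor (τ : Gp p) a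
  rw [Algebra.smul_def, Algebra.smul_def, map_mul]
  congr 1
  exact galE_toE hK E.lev E.nor τ (w : ↥K)

/-- The action of the inertia group on `Pic X_{O_E}` (additively). -/
@[reducible] def actO (hK : InertFixed (padicPlace p) K) :
    DistribMulAction ↥(Ip p) (Additive (PicO c0 E)) :=
  letI := algWO E.lev
  letI := mulSemiringActionO E
  haveI := smulCommClass_W_O E hK
  picDistribMulAction c0 ↥(Ip p) ↥(intSubring p E.E)

/-- The action of the inertia group on `Pic X_E` (additively). -/
@[reducible] def actE (hK : InertFixed (padicPlace p) K) :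
    DistribMulAction ↥(Ip p) (Additive (PicE c0 E)) :=
  letI := algWE E.lev
  letI := mulSemiringActionE E
  haveI := smulCommClass_W_E E hK
  picDistribMulAction c0 ↥(Ip p) ↥E.E

/-- The action of `τ` on `Pic X_{O_E}`, multiplicatively. -/
def gO (hK : InertFixed (padicPlace p) K) (τ : ↥(Ip p)) : PicO c0 E →* PicO c0 E :=
  letI := algWO E.lev
  letI := mulSemiringActionO E
  haveI := smulCommClass_W_O E hK
  actPicLin c0 τ

/-- The action of `τ` on `Pic X_E`, multiplicatively. -/
def gE (hK : InertFixed (padicPlace p) K) (τ : ↥(Ip p)) : PicE c0 E →* PicE c0 E :=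
  letI := algWE E.lev
  letI := mulSemiringActionE E
  haveI := smulCommClass_W_E E hK
  actPicLin c0 τ

theorem actO_smul (hK : InertFixed (padicPlace p) K) (τ : ↥(Ip p)) (x : Additive (PicO c0 E)) :
    letI := actO c0 E hK
    τ • x = Additive.ofMul (gO c0 E hK τ (Additive.toMul x)) := rfl

theorem actE_smul (hK : InertFixed (padicPlace p) K) (τ : ↥(Ip p)) (x : Additive (PicE c0 E)) :
    letI := actE c0 E hK
    τ • x = Additive.ofMul (gE c0 E hK τ (Additive.toMul x)) := rfl

/-- `galO τ` is `W`-linear. -/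
theorem galO_semi (hK : InertFixed (padicPlace p) K) (τ : ↥(Ip p)) :
    letI := algWO E.lev
    ∀ (w : Wb p K) (a : ↥(intSubring p E.E)), galO E.nor (τ : Gp p) (w • a) =
      (idChartAut c0).σW w • galO E.nor (τ : Gp p) a := by
  letI := algWO E.lev
  letI := mulSemiringActionO E
  haveI := smulCommClass_W_O E hK
  exact fun w a => smul_comm τ w a

/-- `galE τ` is `W`-linear. -/
theorem galE_semi (hK : InertFixed (padicPlace p) K) (τ : ↥(Ip p)) :
    letI := algWE E.lev
    ∀ (w : Wb p K) (a : ↥E.E), galE E.nor (τ : Gp p) (w • a) =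
      (idChartAut c0).σW w • galE E.nor (τ : Gp p) a := by
  letI := algWE E.lev
  letI := mulSemiringActionE E
  haveI := smulCommClass_W_E E hK
  exact fun w a => smul_comm τ w a

theorem gO_apply (hK : InertFixed (padicPlace p) K) (τ : ↥(Ip p)) (x : PicO c0 E) :
    letI := algWO E.lev
    gO c0 E hK τ x =
      PicX.mapSemi (idChartAut c0) (galO E.nor (τ : Gp p)) (galO_semi c0 E hK τ) x := rfl

theorem gE_apply (hK : InertFixed (padicPlace p) K) (τ : ↥(Ip p)) (x : PicE c0 E) :
    letI := algWE E.lev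
    gE c0 E hK τ x =
      PicX.mapSemi (idChartAut c0) (galE E.nor (τ : Gp p)) (galE_semi c0 E hK τ) x := rfl

theorem gO_one (hK : InertFixed (padicPlace p) K) (x : PicO c0 E) : gO c0 E hK 1 x = x := by
  letI := algWO E.lev
  letI := mulSemiringActionO E
  haveI := smulCommClass_W_O E hK
  exact actPicLin_one c0 x

theorem gO_mul (hK : InertFixed (padicPlace p) K) (σ τ : ↥(Ip p)) (x : PicO c0 E) :
    gO c0 E hK (σ * τ) x = gO c0 E hK σ (gO c0 E hK τ x) := by
  letI := algWO E.lev
  letI := mulSemiringActionO E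
  haveI := smulCommClass_W_O E hK
  exact actPicLin_mul c0 σ τ x

theorem gE_one (hK : InertFixed (padicPlace p) K) (x : PicE c0 E) : gE c0 E hK 1 x = x := by
  letI := algWE E.lev
  letI := mulSemiringActionE E
  haveI := smulCommClass_W_E E hK
  exact actPicLin_one c0 x

theorem gE_mul (hK : InertFixed (padicPlace p) K) (σ τ : ↥(Ip p)) (x : PicE c0 E) :
    gE c0 E hK (σ * τ) x = gE c0 E hK σ (gE c0 E hK τ x) := by
  letI := algWE E.lev
  letI := mulSemiringActionE E
  haveI := smulCommClass_W_E E hK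
  exact actPicLin_mul c0 σ τ x

/-! ### (3) Equivariance of the base-change maps -/

/-- `O_E → ℚ̄_p` is inertia-equivariant. -/
theorem smul_algebraMap_O_Kbar (g : ↥(Ip p)) (a : ↥(intSubring p E.E)) :
    letI := mulSemiringActionO E
    g • algebraMap ↥(intSubring p E.E) (Kbar p) a =
      algebraMap ↥(intSubring p E.E) (Kbar p) (g • a) := by
  letI := mulSemiringActionO E
  rw [algebraMap_O_Kbar, algebraMap_O_Kbar, smul_O, coe_galO, smul_Kbar]

/-- `E → ℚ̄_p` is inertia-equivariant. -/
theorem smul_algebraMap_E_Kbar (g : ↥(Ip p)) (a : ↥E.E) :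
    letI := mulSemiringActionE E
    g • algebraMap ↥E.E (Kbar p) a = algebraMap ↥E.E (Kbar p) (g • a) := by
  letI := mulSemiringActionE E
  rw [algebraMap_E_Kbar, algebraMap_E_Kbar, smul_E, coe_galE, smul_Kbar]

/-- `O_E → E` is inertia-equivariant. -/
theorem smul_algebraMap_O_E (g : ↥(Ip p)) (a : ↥(intSubring p E.E)) :
    letI := algOE E.E
    letI := mulSemiringActionO E
    letI := mulSemiringActionE E
    g • algebraMap ↥(intSubring p E.E) ↥E.E a = algebraMap ↥(intSubring p E.E) ↥E.E (g • a) := by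
  letI := algOE E.E
  letI := mulSemiringActionO E
  letI := mulSemiringActionE E
  exact (oToE_galO E.nor (g : Gp p) a).symm

/-- `O_E → O_E'` is inertia-equivariant. -/
theorem smul_algebraMap_O_O {E E' : NLevel p K} (hE : E ≤ E') (g : ↥(Ip p))
    (a : ↥(intSubring p E.E)) :
    letI := algOO (p := p) (NLevel.E_le hE)
    letI := mulSemiringActionO E
    letI := mulSemiringActionO E'
    g • algebraMap ↥(intSubring p E.E) ↥(intSubring p E'.E) a =
      algebraMap ↥(intSubring p E.E) ↥(intSubring p E'.E) (g • a) := by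
  letI := algOO (p := p) (NLevel.E_le hE)
  letI := mulSemiringActionO E
  letI := mulSemiringActionO E'
  apply Subtype.ext
  rw [smul_O, smul_O, coe_galO, coe_algebraMap, coe_algebraMap, coe_galO]

/-- the algebra map `F → F'`, on elements (generic in `F ≤ F'`, so that the kernel never has to
compare two concrete local fields). -/
theorem coe_algebraMap_E_E {F F' : IntermediateField ℚ_[p] (Kbar p)} (hF : F ≤ F') (a : ↥F) :
    letI := algEE (p := p) hF
    ((algebraMap ↥F ↥F' a : ↥F') : Kbar p) = (a : Kbar p) := rfl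

/-- `E → E'` is inertia-equivariant. -/
theorem smul_algebraMap_E_E {E E' : NLevel p K} (hE : E ≤ E') (g : ↥(Ip p)) (a : ↥E.E) :
    letI := algEE (p := p) (NLevel.E_le hE)
    letI := mulSemiringActionE E
    letI := mulSemiringActionE E'
    g • algebraMap ↥E.E ↥E'.E a = algebraMap ↥E.E ↥E'.E (g • a) := by
  letI := algEE (p := p) (NLevel.E_le hE)
  letI := mulSemiringActionE E
  letI := mulSemiringActionE E'
  apply Subtype.ext
  rw [smul_E, smul_E, coe_galE, coe_algebraMap_E_E (NLevel.E_le hE),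
    coe_algebraMap_E_E (NLevel.E_le hE), coe_galE]

/-- `Pic X_{O_E} → Pic X_{ℚ̄_p}` is inertia-equivariant. -/
theorem bcO_gO (hK : InertFixed (padicPlace p) K) (τ : ↥(Ip p)) (x : PicO c0 E) :
    bcO c0 E (gO c0 E hK τ x) = gTop c0 hK τ (bcO c0 E x) := by
  letI := algWO E.lev
  letI := algWKbar p K
  letI := algOKbar E.E
  haveI := tower_W_O_Kbar E.lev
  letI := mulSemiringActionO E
  haveI := smulCommClass_W_O E hK
  haveI := smulCommClass_W_Kbar hK
  exact map_actPicLin c0 (A := ↥(intSubring p E.E)) (A1 := Kbar p)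
    (fun g a => smul_algebraMap_O_Kbar E g a) τ x

/-- `Pic X_E → Pic X_{ℚ̄_p}` is inertia-equivariant. -/
theorem bcE_gE (hK : InertFixed (padicPlace p) K) (τ : ↥(Ip p)) (x : PicE c0 E) :
    bcE c0 E (gE c0 E hK τ x) = gTop c0 hK τ (bcE c0 E x) := by
  letI := algWE E.lev
  letI := algWKbar p K
  letI := algEKbar E.E
  haveI := tower_W_E_Kbar E.lev
  letI := mulSemiringActionE E
  haveI := smulCommClass_W_E E hK
  haveI := smulCommClass_W_Kbar hK
  exact map_actPicLin c0 (A := ↥E.E) (A1 := Kbar p)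
    (fun g a => smul_algebraMap_E_Kbar E g a) τ x

/-- `Pic X_{O_E} → Pic X_E` is inertia-equivariant. -/
theorem bcOE_gO (hK : InertFixed (padicPlace p) K) (τ : ↥(Ip p)) (x : PicO c0 E) :
    bcOE c0 E (gO c0 E hK τ x) = gE c0 E hK τ (bcOE c0 E x) := by
  letI := algWO E.lev
  letI := algWE E.lev
  letI := algOE E.E
  haveI := tower_W_O_E E.lev
  letI := mulSemiringActionO E
  letI := mulSemiringActionE E
  haveI := smulCommClass_W_O E hK
  haveI := smulCommClass_W_E E hK
  exact map_actPicLin c0 (A := ↥(intSubring p E.E)) (A1 := ↥E.E)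
    (fun g a => smul_algebraMap_O_E E g a) τ x

/-- `Pic X_{O_E} → Pic X_{O_E'}` is inertia-equivariant. -/
theorem bcOO_gO {E E' : NLevel p K} (hE : E ≤ E') (hK : InertFixed (padicPlace p) K) (τ : ↥(Ip p))
    (x : PicO c0 E) : bcOO c0 hE (gO c0 E hK τ x) = gO c0 E' hK τ (bcOO c0 hE x) := by
  letI := algWO E.lev
  letI := algWO E'.lev
  letI := algOO (p := p) (NLevel.E_le hE)
  haveI := tower_W_O_O E.lev (NLevel.E_le hE)
  letI := mulSemiringActionO E
  letI := mulSemiringActionO E'
  haveI := smulCommClass_W_O E hK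
  haveI := smulCommClass_W_O E' hK
  exact map_actPicLin c0 (A := ↥(intSubring p E.E)) (A1 := ↥(intSubring p E'.E))
    (fun g a => smul_algebraMap_O_O hE g a) τ x

/-- `Pic X_E → Pic X_E'` is inertia-equivariant. -/
theorem bcEE_gE {E E' : NLevel p K} (hE : E ≤ E') (hK : InertFixed (padicPlace p) K) (τ : ↥(Ip p))
    (x : PicE c0 E) : bcEE c0 hE (gE c0 E hK τ x) = gE c0 E' hK τ (bcEE c0 hE x) := by
  letI := algWE E.lev
  letI := algWE E'.lev
  letI := algEE (p := p) (NLevel.E_le hE)
  haveI := tower_W_E_E E.lev (NLevel.E_le hE)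
  letI := mulSemiringActionE E
  letI := mulSemiringActionE E'
  haveI := smulCommClass_W_E E hK
  haveI := smulCommClass_W_E E' hK
  exact map_actPicLin c0 (A := ↥E.E) (A1 := ↥E'.E)
    (fun g a => smul_algebraMap_E_E hE g a) τ x

/-- `bcO` is equivariant, additively. -/
theorem bcO_smul (hK : InertFixed (padicPlace p) K) (τ : ↥(Ip p)) (x : Additive (PicO c0 E)) :
    letI := actO c0 E hK
    letI := actTop c0 hK
    (Additive.ofMul (bcO c0 E (Additive.toMul (τ • x))) : Atop p K c0) =
      τ • (Additive.ofMul (bcO c0 E (Additive.toMul x)) : Atop p K c0) :=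
  congrArg Additive.ofMul (bcO_gO c0 E hK τ (Additive.toMul x))

/-- `bcE` is equivariant, additively. -/
theorem bcE_smul (hK : InertFixed (padicPlace p) K) (τ : ↥(Ip p)) (x : Additive (PicE c0 E)) :
    letI := actE c0 E hK
    letI := actTop c0 hK
    (Additive.ofMul (bcE c0 E (Additive.toMul (τ • x))) : Atop p K c0) =
      τ • (Additive.ofMul (bcE c0 E (Additive.toMul x)) : Atop p K c0) :=
  congrArg Additive.ofMul (bcE_gE c0 E hK τ (Additive.toMul x))

/-- A union of inertia-stable subgroups of the `Pic X_{O_E}` is inertia-stable. -/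
theorem smul_mem_unionSub [Nonempty (NLevel p K)] (hK : InertFixed (padicPlace p) K)
    {P : ∀ E : NLevel p K, Subgroup (PicO c0 E)} {hP : Compatible c0 P}
    (hstab : ∀ (E : NLevel p K) (τ : ↥(Ip p)), ∀ x ∈ P E, gO c0 E hK τ x ∈ P E)
    (τ : ↥(Ip p)) {y : Atop p K c0} (hy : y ∈ unionSub c0 P hP) :
    letI := actTop c0 hK
    τ • y ∈ unionSub c0 P hP := by
  obtain ⟨E, x, hx, rfl⟩ := hy
  refine ⟨E, gO c0 E hK τ x, hstab E τ x hx, ?_⟩
  rw [bcO_gO]
  rfl

/-! ### (4) Inertia acts trivially on the residue field -/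

/-- An element of `O_E` of norm `< 1` lies in the maximal ideal. -/
theorem mem_maximalIdeal_of_norm_lt_one {x : ↥(intSubring p E.E)} (hx : ‖(x : Kbar p)‖ < 1) :
    letI := isLocalRing p E.E
    x ∈ IsLocalRing.maximalIdeal ↥(intSubring p E.E) := by
  letI := isLocalRing p E.E
  rw [IsLocalRing.mem_maximalIdeal, mem_nonunits_iff]
  rintro ⟨u, hu⟩
  have h2 : (u : ↥(intSubring p E.E)) * ((u⁻¹ : (↥(intSubring p E.E))ˣ) : ↥(intSubring p E.E)) = 1 :=
    u.mul_inv
  rw [hu] at h2
  have h3 : (x : Kbar p) * (((u⁻¹ : (↥(intSubring p E.E))ˣ) : ↥(intSubring p E.E)) : Kbar p) = 1 :=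
    congrArg (fun z : ↥(intSubring p E.E) => (z : Kbar p)) h2
  have h4 : ‖(x : Kbar p)‖ *
      ‖(((u⁻¹ : (↥(intSubring p E.E))ˣ) : ↥(intSubring p E.E)) : Kbar p)‖ = 1 := by
    rw [← norm_mul, h3, norm_one]
  have h5 : ‖(((u⁻¹ : (↥(intSubring p E.E))ˣ) : ↥(intSubring p E.E)) : Kbar p)‖ ≤ 1 :=
    ((u⁻¹ : (↥(intSubring p E.E))ˣ) : ↥(intSubring p E.E)).2.2
  nlinarith [norm_nonneg (x : Kbar p),
    norm_nonneg ((((u⁻¹ : (↥(intSubring p E.E))ˣ) : ↥(intSubring p E.E)) : Kbar p))]

/-- **Inertia acts trivially modulo the maximal ideal of `O_E`.** -/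
theorem galO_sub_mem_maximalIdeal (τ : ↥(Ip p)) (x : ↥(intSubring p E.E)) :
    letI := isLocalRing p E.E
    galO E.nor (τ : Gp p) x - x ∈ IsLocalRing.maximalIdeal ↥(intSubring p E.E) := by
  apply mem_maximalIdeal_of_norm_lt_one
  exact (mem_Ip p).1 τ.2 (x : Kbar p) x.2.2

/-- Inertia acts trivially on the residue field of `O_E`. -/
theorem residue_galO (τ : ↥(Ip p)) (x : ↥(intSubring p E.E)) :
    letI := isLocalRing p E.E
    IsLocalRing.residue ↥(intSubring p E.E) (galO E.nor (τ : Gp p) x) =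
      IsLocalRing.residue ↥(intSubring p E.E) x := by
  letI := isLocalRing p E.E
  rw [← sub_eq_zero, ← map_sub, IsLocalRing.residue_eq_zero_iff]
  exact galO_sub_mem_maximalIdeal E τ x

/-- **`red ∘ gO = red`**: the reduction of a class on `X_{O_E}` is inertia-invariant. -/
theorem red_gO (hK : InertFixed (padicPlace p) K) (τ : ↥(Ip p)) (y : PicO c0 E) :
    letI := algWO E.lev
    haveI := isDVR_O E.E
    red c0 ↥(intSubring p E.E) (gO c0 E hK τ y) = red c0 ↥(intSubring p E.E) y := by
  letI := algWO E.lev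
  haveI := isDVR_O E.E
  have hid : ∀ (w : Wb p K) (a : IsLocalRing.ResidueField ↥(intSubring p E.E)),
      RingHom.id (IsLocalRing.ResidueField ↥(intSubring p E.E)) (w • a) =
        (idChartAut c0).σW w • RingHom.id (IsLocalRing.ResidueField ↥(intSubring p E.E)) a :=
    fun _ _ => rfl
  have hsq : (RingHom.id (IsLocalRing.ResidueField ↥(intSubring p E.E))).comp
      (algebraMap ↥(intSubring p E.E) (IsLocalRing.ResidueField ↥(intSubring p E.E))) =
      (algebraMap ↥(intSubring p E.E) (IsLocalRing.ResidueField ↥(intSubring p E.E))).comp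
        (galO E.nor (τ : Gp p)) :=
    RingHom.ext fun a => (residue_galO E τ a).symm
  rw [gO_apply]
  show PicX.map c0 ↥(intSubring p E.E) (IsLocalRing.ResidueField ↥(intSubring p E.E))
      (PicX.mapSemi (idChartAut c0) (galO E.nor (τ : Gp p)) (galO_semi c0 E hK τ) y) = _
  rw [Fermat.Agent.T1.Red20.BcSquare.PicX.map_mapSemi_sq (idChartAut c0) (galO E.nor (τ : Gp p))
    (galO_semi c0 E hK τ) (RingHom.id _) hid hsq y]
  exact Fermat.Agent.T1.Red20.BcSemiComp.PicX.mapSemi_id (idChartAut c0) rfl rfl rfl hid _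

/-- `J̃¹(O_E)` is inertia-stable. -/
theorem gO_mem_J1 (hK : InertFixed (padicPlace p) K) (τ : ↥(Ip p)) {y : PicO c0 E}
    (hy : letI := algWO E.lev; haveI := isDVR_O E.E; y ∈ J1 c0 ↥(intSubring p E.E)) :
    letI := algWO E.lev
    haveI := isDVR_O E.E
    gO c0 E hK τ y ∈ J1 c0 ↥(intSubring p E.E) := by
  letI := algWO E.lev
  haveI := isDVR_O E.E
  show red c0 ↥(intSubring p E.E) (gO c0 E hK τ y) = 1
  rw [red_gO]
  exact hy

end Charts

end Fermat.Agent.T1B.Bridge54.IpInst
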