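/-
Programme T1B (row 38 via S44), cell J-BRIDGE / GLUE (owner helper66), brick (B3) "ACTION", part 4
(helper54): **inertia and the unions over the levels** (`Local66/Union.lean`).

* `J1Fam c0 E = J̃¹(O_E) ≤ Pic X_{O_E}` (the kernel of the reduction), `gO_div_mem_J1Fam` :
  `gO τ x / x ∈ J̃¹(O_E)` for EVERY class `x` on `X_{O_E}` (inertia acts trivially on the residue field),
  `compatible_J1Fam` from the functoriality of `red` as a hypothesis-free statement is NOT proved here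
  (it is `hPP1` of helper66's GLUE); we only need `Compatible` as a hypothesis.
* `smul_sub_mem_unionSub` : if `gO τ x / x ∈ Q E` for `x ∈ P E` (all levels), then
  `τ • y - y ∈ unionSub Q` for `y ∈ unionSub P`.
* **`smul_sub_mem_unionSub_J1`** (= `LocalGeom.sub_mem_J1`) : for a family `P` with `J̃¹(O_E) ≤ P E`
  (e.g. `P = P00`, `Bal60.J1_le_P00`): `τ • y - y ∈ unionSub (P ⊓ J̃¹)` for `y ∈ unionSub P`.
* `smul_mem_unionSub_of_J1_le` : such a union is inertia-stable.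
-/
import Mathlib
import Fermat.Agent.T1B.Bridge54.IpInst

set_option autoImplicit false
set_option linter.unusedSectionVars false
set_option linter.style.haveILetI false
set_option synthInstance.maxHeartbeats 400000
set_option maxHeartbeats 1000000

open Fermat.Agent.TW.B5.Iface Fermat.Agent.RED.Interface4 Fermat.Agent.T1.HubInst98
open Fermat.Agent.T1.IntSub47 Fermat.Agent.Jac Fermat.Agent.T1.RedIface75
open Fermat.Agent.T1B.Local66.LocalBase Fermat.Agent.T1B.Local66.Union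
open Fermat.Agent.T1B.Plumb66.Inertia (Ip mem_Ip)
open Fermat.Agent.T1B.Bridge54.IpAction Fermat.Agent.T1B.Bridge54.IpInst
open Fermat.Agent.ES.P36.InertField27 (InertFixed)

noncomputable section

namespace Fermat.Agent.T1B.Bridge54.IpUnion

variable {p : ℕ} [Fact p.Prime] {K : IntermediateField ℚ Qbar}
  {B0 B1 B01 : Type} [CommRing B0] [CommRing B1] [CommRing B01]
  [Algebra (Wb p K) B0] [Algebra (Wb p K) B1] [Algebra (Wb p K) B01] [Algebra B0 B01]
  [Algebra B1 B01] [IsScalarTower (Wb p K) B0 B01] [IsScalarTower (Wb p K) B1 B01]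
  (c0 : TwoChart (Wb p K) B0 B1 B01)

/-- `J̃¹(O_E)`: the classes on `X_{O_E}` with trivial special fibre. -/
def J1Fam (E : NLevel p K) : Subgroup (PicO c0 E) :=
  letI := algWO E.lev
  haveI := isDVR_O E.E
  J1 c0 ↥(intSubring p E.E)

theorem mem_J1Fam {E : NLevel p K} {x : PicO c0 E} :
    x ∈ J1Fam c0 E ↔
      (letI := algWO E.lev
       haveI := isDVR_O E.E
       red c0 ↥(intSubring p E.E) x = 1) := Iff.rfl

/-- **`gO τ x / x ∈ J̃¹(O_E)` for every class `x`.** -/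
theorem gO_div_mem_J1Fam (hK : InertFixed (padicPlace p) K) (E : NLevel p K) (τ : ↥(Ip p))
    (x : PicO c0 E) : gO c0 E hK τ x / x ∈ J1Fam c0 E := by
  letI := algWO E.lev
  haveI := isDVR_O E.E
  show red c0 ↥(intSubring p E.E) (gO c0 E hK τ x / x) = 1
  rw [map_div, red_gO, div_self']

/-- `J̃¹(O_E)` is inertia-stable. -/
theorem gO_mem_J1Fam (hK : InertFixed (padicPlace p) K) (E : NLevel p K) (τ : ↥(Ip p))
    {x : PicO c0 E} (hx : x ∈ J1Fam c0 E) : gO c0 E hK τ x ∈ J1Fam c0 E :=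
  gO_mem_J1 c0 E hK τ hx

/-- A subgroup containing `J̃¹(O_E)` is inertia-stable. -/
theorem gO_mem_of_J1Fam_le (hK : InertFixed (padicPlace p) K) (E : NLevel p K)
    {P : Subgroup (PicO c0 E)} (hJP : J1Fam c0 E ≤ P) (τ : ↥(Ip p)) {x : PicO c0 E} (hx : x ∈ P) :
    gO c0 E hK τ x ∈ P := by
  have h1 : gO c0 E hK τ x / x ∈ P := hJP (gO_div_mem_J1Fam c0 hK E τ x)
  have h2 := P.mul_mem h1 hx
  rwa [div_mul_cancel] at h2

variable [Nonempty (NLevel p K)]

/-- If `gO τ x / x ∈ Q E` for all `x ∈ P E` (all levels), then `τ • y - y ∈ unionSub Q` for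
`y ∈ unionSub P`. -/
theorem smul_sub_mem_unionSub (hK : InertFixed (padicPlace p) K)
    {P Q : ∀ E : NLevel p K, Subgroup (PicO c0 E)} {hP : Compatible c0 P} {hQ : Compatible c0 Q}
    (τ : ↥(Ip p)) (hPQ : ∀ (E : NLevel p K), ∀ x ∈ P E, gO c0 E hK τ x / x ∈ Q E)
    {y : Atop p K c0} (hy : y ∈ unionSub c0 P hP) :
    letI := actTop c0 hK
    τ • y - y ∈ unionSub c0 Q hQ := by
  obtain ⟨E, x, hx, rfl⟩ := hy
  refine ⟨E, gO c0 E hK τ x / x, hPQ E x hx, ?_⟩
  rw [map_div, bcO_gO]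
  rfl

/-- **`LocalGeom.sub_mem_J1`**: for a family `P` of subgroups containing the `J̃¹(O_E)`,
`τ • y - y ∈ unionSub (P ⊓ J̃¹)` for every `y ∈ unionSub P`. -/
theorem smul_sub_mem_unionSub_J1 (hK : InertFixed (padicPlace p) K)
    {P : ∀ E : NLevel p K, Subgroup (PicO c0 E)} {hP : Compatible c0 P}
    {hP1 : Compatible c0 (fun E => P E ⊓ J1Fam c0 E)} (hJP : ∀ E, J1Fam c0 E ≤ P E)
    (τ : ↥(Ip p)) {y : Atop p K c0} (hy : y ∈ unionSub c0 P hP) :
    letI := actTop c0 hK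
    τ • y - y ∈ unionSub c0 (fun E => P E ⊓ J1Fam c0 E) hP1 :=
  smul_sub_mem_unionSub c0 hK (P := P) (Q := fun E => P E ⊓ J1Fam c0 E) τ
    (fun E x _ => Subgroup.mem_inf.2
      ⟨hJP E (gO_div_mem_J1Fam c0 hK E τ x), gO_div_mem_J1Fam c0 hK E τ x⟩) hy

/-- A union of subgroups containing the `J̃¹(O_E)` is inertia-stable. -/
theorem smul_mem_unionSub_of_J1Fam_le (hK : InertFixed (padicPlace p) K)
    {P : ∀ E : NLevel p K, Subgroup (PicO c0 E)} {hP : Compatible c0 P}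
    (hJP : ∀ E, J1Fam c0 E ≤ P E) (τ : ↥(Ip p)) {y : Atop p K c0}
    (hy : y ∈ unionSub c0 P hP) :
    letI := actTop c0 hK
    τ • y ∈ unionSub c0 P hP :=
  smul_mem_unionSub c0 hK (fun E τ _ hx => gO_mem_of_J1Fam_le c0 hK E (hJP E) τ hx) τ hy

/-- The union of the `P E ⊓ J̃¹(O_E)` is inertia-stable as soon as every `P E` is. -/
theorem smul_mem_unionSub_inf_J1 (hK : InertFixed (padicPlace p) K)
    {P : ∀ E : NLevel p K, Subgroup (PicO c0 E)}
    {hP1 : Compatible c0 (fun E => P E ⊓ J1Fam c0 E)}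
    (hstab : ∀ (E : NLevel p K) (τ : ↥(Ip p)), ∀ x ∈ P E, gO c0 E hK τ x ∈ P E)
    (τ : ↥(Ip p)) {y : Atop p K c0}
    (hy : y ∈ unionSub c0 (fun E => P E ⊓ J1Fam c0 E) hP1) :
    letI := actTop c0 hK
    τ • y ∈ unionSub c0 (fun E => P E ⊓ J1Fam c0 E) hP1 :=
  smul_mem_unionSub c0 hK (P := fun E => P E ⊓ J1Fam c0 E)
    (fun E τ x hx => Subgroup.mem_inf.2
      ⟨hstab E τ x (Subgroup.mem_inf.1 hx).1, gO_mem_J1Fam c0 hK E τ (Subgroup.mem_inf.1 hx).2⟩) τ hy

end Fermat.Agent.T1B.Bridge54.IpUnion
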