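/-
Programme T1B (row 38 via S44), cell J-BRIDGE (owner helper66), brick (B3) "ACTION", part 3 (helper54):
**the number-field side of the bridge and `j_res`.**

`L ⊇ K` a (finite normal) number field inside `ℚ̄`, a `W`-algebra through `algAKL (padicPlace p) hle`
(helper98's `HubInst98`), mapped to `ℚ̄_p` by `ι = padicEmbedding p` (`LocalBase.iotaK p L`).

* `algLKbar p L : Algebra ↥L (Kbar p)` (reducible definition, use `letI`), `algebraMap_L_Kbar` (rfl),
  `tower_W_L_Kbar hle`, `tower_W_L_L hle₁ hL`, `tower_L_L_Kbar hL`;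
* `bcL c0 hle : Pic X_L →* Pic X_{ℚ̄_p}` (`= PicX.map c0 ↥L (Kbar p)`), `bcL_map` (compatibility with
  `L₁ ≤ L`), `bcL_mem_picPt`;
* `res_fixes hK τ` : `res τ` fixes `K` pointwise for `τ ∈ I_p`; `smul_iotaL` :
  `τ (ι a) = ι (res τ |_L a)`; `resL_semi_of_fixes` : `σ|_L` is `W`-linear when `σ` fixes `K`;
* **`bcL_mapSemi`** : `bcL (PicX.mapSemi S f _ x) = gTop c0 hK τ (bcL x)` for `f = res τ |_L` and every
  chart automorphism `S` with identity components (the Galois clause (v) of the dictionary produces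
  exactly `PicX.mapSemi S ↑(resL L σ) _ (d x)`);
* **`bridge_res_L`** (`j_res`): if `d y = PicX.mapSemi S f _ (d x)` then
  `ofMul (bcL (d y)) = τ • ofMul (bcL (d x))` for the action `actTop c0 hK`.
-/
import Mathlib
import Fermat.Agent.T1B.Bridge54.IpInst
import Fermat.Agent.T1.HubInst98.Galois

set_option autoImplicit false
set_option linter.unusedSectionVars false
set_option linter.style.haveILetI false
set_option synthInstance.maxHeartbeats 400000
set_option maxHeartbeats 1000000

open Fermat.Agent.TW.B5.Iface Fermat.Agent.RED.Interface4 Fermat.Agent.T1.HubInst98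
open Fermat.Agent.T1.IntSub47 Fermat.Agent.Jac Fermat.Agent.T1.RedIface75 Fermat.Agent.T1.Red11
open Fermat.Agent.T1.PtLine75
open Fermat.Agent.T1B.Local66.LocalBase Fermat.Agent.T1B.Local66.Union
open Fermat.Agent.T1B.Plumb66.Inertia (Ip mem_Ip)
open Fermat.Agent.T1B.Bridge54.IpAction Fermat.Agent.T1B.Bridge54.IpInst
open Fermat.Agent.ES.P36.InertField27 (InertFixed)

noncomputable section

namespace Fermat.Agent.T1B.Bridge54.IpRes

/-! ### `ℚ̄_p` as an algebra over a number field `L ⊂ ℚ̄` -/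

/-- `ℚ̄_p` as an `L`-algebra through `ι`. -/
abbrev algLKbar (p : ℕ) [Fact p.Prime] (L : IntermediateField ℚ Qbar) : Algebra ↥L (Kbar p) :=
  (iotaK p L).toAlgebra

variable {p : ℕ} [Fact p.Prime] {K : IntermediateField ℚ Qbar}

theorem algebraMap_L_Kbar (L : IntermediateField ℚ Qbar) (a : ↥L) :
    letI := algLKbar p L
    algebraMap ↥L (Kbar p) a = padicEmbedding p (a : Qbar) := rfl

theorem tower_W_L_Kbar {L : IntermediateField ℚ Qbar} (hle : K ≤ L) :
    letI := algAKL (padicPlace p) hle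
    letI := algWKbar p K
    letI := algLKbar p L
    IsScalarTower (Wb p K) ↥L (Kbar p) := by
  letI := algAKL (padicPlace p) hle
  letI := algWKbar p K
  letI := algLKbar p L
  exact IsScalarTower.of_algebraMap_eq fun _ => rfl

theorem tower_W_L_L {L₁ L : IntermediateField ℚ Qbar} (hle₁ : K ≤ L₁) (hL : L₁ ≤ L) :
    letI := algAKL (padicPlace p) hle₁
    letI := algAKL (padicPlace p) (hle₁.trans hL)
    letI := algKL hL
    IsScalarTower (Wb p K) ↥L₁ ↥L := by
  letI := algAKL (padicPlace p) hle₁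
  letI := algAKL (padicPlace p) (hle₁.trans hL)
  letI := algKL hL
  exact IsScalarTower.of_algebraMap_eq fun _ => rfl

theorem tower_L_L_Kbar {L₁ L : IntermediateField ℚ Qbar} (hL : L₁ ≤ L) :
    letI := algKL hL
    letI := algLKbar p L₁
    letI := algLKbar p L
    IsScalarTower ↥L₁ ↥L (Kbar p) := by
  letI := algKL hL
  letI := algLKbar p L₁
  letI := algLKbar p L
  exact IsScalarTower.of_algebraMap_eq fun _ => rfl

/-! ### The Galois side -/

/-- **`res τ` fixes `K` pointwise** for `τ` in the inertia group (`K` inertial). -/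
theorem res_fixes (hK : InertFixed (padicPlace p) K) (τ : ↥(Ip p)) :
    ∀ a ∈ K, localGaloisToGlobal p (τ : Gp p) a = a :=
  fun a ha => hK _ τ.2 a ha

/-- `τ (ι a) = ι (res τ |_L a)`. -/
theorem smul_iotaL (L : IntermediateField ℚ Qbar) [Normal ℚ L] (τ : ↥(Ip p)) (a : ↥L) :
    letI := algLKbar p L
    τ • algebraMap ↥L (Kbar p) a =
      algebraMap ↥L (Kbar p) (resL L (localGaloisToGlobal p (τ : Gp p)) a) := by
  letI := algLKbar p L
  exact (iota_jL_resL L p (τ : Gp p) a).symm

/-- `σ|_L` is `W`-linear when `σ` fixes `K` pointwise. -/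
theorem resL_semi_of_fixes {L : IntermediateField ℚ Qbar} [Normal ℚ L] (hle : K ≤ L)
    (σ : Qbar ≃ₐ[ℚ] Qbar) (hσ : ∀ a ∈ K, σ a = a) (w : Wb p K) (a : ↥L) :
    letI := algAKL (padicPlace p) hle
    resL L σ (w • a) = w • resL L σ a := by
  letI := algAKL (padicPlace p) hle
  rw [Algebra.smul_def, Algebra.smul_def, map_mul]
  congr 1
  apply jL_injective
  rw [jL_resL]
  exact hσ _ (w : ↥K).2

section Charts

variable {B0 B1 B01 : Type} [CommRing B0] [CommRing B1] [CommRing B01]
  [Algebra (Wb p K) B0] [Algebra (Wb p K) B1] [Algebra (Wb p K) B01] [Algebra B0 B01]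
  [Algebra B1 B01] [IsScalarTower (Wb p K) B0 B01] [IsScalarTower (Wb p K) B1 B01]
  (c0 : TwoChart (Wb p K) B0 B1 B01)

/-- `Pic X_L` for a number field `L ⊇ K`. -/
abbrev PicL {L : IntermediateField ℚ Qbar} (hle : K ≤ L) : Type 1 :=
  letI := algAKL (padicPlace p) hle
  PicX c0 ↥L

/-- **`Pic X_L → Pic X_{ℚ̄_p}`**, base change along `ι`. -/
def bcL {L : IntermediateField ℚ Qbar} (hle : K ≤ L) : PicL c0 hle →* PicTop p K c0 :=
  letI := algAKL (padicPlace p) hle
  letI := algWKbar p K
  letI := algLKbar p L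
  haveI := tower_W_L_Kbar (p := p) hle
  PicX.map c0 ↥L (Kbar p)

/-- Compatibility of `bcL` with the enlargement of `L`. -/
theorem bcL_map {L₁ L : IntermediateField ℚ Qbar} (hle₁ : K ≤ L₁) (hL : L₁ ≤ L)
    (x : PicL c0 hle₁) :
    letI := algAKL (padicPlace p) hle₁
    letI := algAKL (padicPlace p) (hle₁.trans hL)
    letI := algKL hL
    haveI := tower_W_L_L (p := p) hle₁ hL
    bcL c0 (hle₁.trans hL) (PicX.map c0 ↥L₁ ↥L x) = bcL c0 hle₁ x := by
  letI := algAKL (padicPlace p) hle₁
  letI := algAKL (padicPlace p) (hle₁.trans hL)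
  letI := algKL hL
  letI := algWKbar p K
  letI := algLKbar p L₁
  letI := algLKbar p L
  haveI := tower_W_L_L (p := p) hle₁ hL
  haveI := tower_W_L_Kbar (p := p) hle₁
  haveI := tower_W_L_Kbar (p := p) (hle₁.trans hL)
  haveI := tower_L_L_Kbar (p := p) hL
  exact PicX.map_comp c0 ↥L₁ ↥L (Kbar p) x

/-- `bcL` maps classes of `L`-points to classes of `ℚ̄_p`-points. -/
theorem bcL_mem_picPt {L : IntermediateField ℚ Qbar} (hle : K ≤ L) {x : PicL c0 hle}
    (hx : letI := algAKL (padicPlace p) hle; x ∈ (pointClasses c0).PicPt ↥L) :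
    letI := algWKbar p K
    bcL c0 hle x ∈ (pointClasses c0).PicPt (Kbar p) := by
  letI := algAKL (padicPlace p) hle
  letI := algWKbar p K
  letI := algLKbar p L
  haveI := tower_W_L_Kbar (p := p) hle
  exact (pointClasses c0).map_mem ↥L (Kbar p) x hx

/-- **The mixed square for inertia**: base change `L → ℚ̄_p` intertwines the semilinear base change
along `f = res τ |_L` (for ANY chart automorphism `S` with identity components) with the action of
`τ ∈ I_p` on `Pic X_{ℚ̄_p}`. -/
theorem bcL_mapSemi (hK : InertFixed (padicPlace p) K) {L : IntermediateField ℚ Qbar} [Normal ℚ L]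
    (hle : K ≤ L) (τ : ↥(Ip p)) (S : ChartAut c0) (hW : S.σW = RingHom.id (Wb p K))
    (h0 : S.σ0 = RingHom.id B0) (h1 : S.σ1 = RingHom.id B1) (h01 : S.σ01 = RingHom.id B01)
    (f : ↥L →+* ↥L) (hf : ∀ a, f a = resL L (localGaloisToGlobal p (τ : Gp p)) a)
    (hsemi : letI := algAKL (padicPlace p) hle
      ∀ (w : Wb p K) (a : ↥L), f (w • a) = S.σW w • f a) (x : PicL c0 hle) :
    letI := algAKL (padicPlace p) hle
    bcL c0 hle (PicX.mapSemi S f hsemi x) = gTop c0 hK τ (bcL c0 hle x) := by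
  letI := algAKL (padicPlace p) hle
  letI := algWKbar p K
  letI := algLKbar p L
  haveI := tower_W_L_Kbar (p := p) hle
  haveI := smulCommClass_W_Kbar hK
  have hg : ∀ a : ↥L, τ • algebraMap ↥L (Kbar p) a = algebraMap ↥L (Kbar p) (f a) := by
    intro a
    rw [hf a]
    exact smul_iotaL L τ a
  exact map_mapSemi_eq_actPicLin c0 (L := ↥L) (Ω := Kbar p) S hW h0 h1 h01 f hsemi τ hg x

/-- **`j_res`**, abstract in the dictionary map `d`: if `d y` is the semilinear base change of `d x`
along `res τ |_L` (clause (v) of the dictionary for `σ = res τ`, which fixes `K`: `res_fixes`), then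
`j y = τ • j x` for `j = ofMul ∘ bcL ∘ d` and the action `actTop c0 hK`. -/
theorem bridge_res_L (hK : InertFixed (padicPlace p) K) {L : IntermediateField ℚ Qbar} [Normal ℚ L]
    (hle : K ≤ L) (τ : ↥(Ip p)) (S : ChartAut c0) (hW : S.σW = RingHom.id (Wb p K))
    (h0 : S.σ0 = RingHom.id B0) (h1 : S.σ1 = RingHom.id B1) (h01 : S.σ01 = RingHom.id B01)
    (f : ↥L →+* ↥L) (hf : ∀ a, f a = resL L (localGaloisToGlobal p (τ : Gp p)) a)
    (hsemi : letI := algAKL (padicPlace p) hle
      ∀ (w : Wb p K) (a : ↥L), f (w • a) = S.σW w • f a)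
    {X : Type*} (d : X → PicL c0 hle) (x y : X)
    (hxy : letI := algAKL (padicPlace p) hle
      d y = PicX.mapSemi S f hsemi (d x)) :
    letI := actTop c0 hK
    (Additive.ofMul (bcL c0 hle (d y)) : Atop p K c0) =
      τ • (Additive.ofMul (bcL c0 hle (d x)) : Atop p K c0) := by
  letI := algAKL (padicPlace p) hle
  rw [hxy, bcL_mapSemi c0 hK hle τ S hW h0 h1 h01 f hf hsemi (d x)]
  rfl

end Charts

end Fermat.Agent.T1B.Bridge54.IpRes
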