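/-
Programme T1B (row 38 via S44), cell J-BRIDGE (owner helper66), brick (B3), part 5 (helper54):
**THE BRIDGE `jTop : J₀(N)(ℚ̄)[p] →+ A = Pic X_{ℚ̄_p}`** and the `LocalGeom` fields `j`, `j_inj`,
`j_res`, `j_Pt`, from helper39's level maps `Fam.d S L hle` (`Bridge39/Final.lean`), helper43's
EXT-INJ-FIELD (`Bridge43/ExtInjField.lean`) and the inertia action (`Bridge54/IpInst`, `IpRes`).

Input: `Fam : ChartIsoFamilyN (padicPlace p) N K c0`, `S : TorsSec N K p`.

* `jLevel Fam S L hle x = ofMul (bcL c0 _ (Fam.d S L hle x))`, `jLevel_add`, `jLevel_tower`;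
* (i)   **`jTop Fam S : ↥(J₀(N)(ℚ̄)[p]) →+ Atop p K c0`** (the level `L = S.L₀`);
* (ii)  `jTop_eq_level` : `jTop x = ofMul (bcL c0 _ (Fam.d S L hle x))` for EVERY finite normal `L ⊇ S.L₀`;
* (iii) `jTop_injective` (hypotheses `[Nontrivial (Kbar p ⊗[W] B0)]`, `hH0 : H0Const (c0.baseChange (Kbar p))`);
* **`jTop_res hK`** = `LocalGeom.j_res` verbatim for the action `actTop c0 hK`;
* (v)   `bcLE c0 E : Pic X_{E.L} →* PicE c0 E` (`PicX.map c0 ↥E.L ↥E.E`, algebra `(toE E.levL).toAlgebra`),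
        `bcE_bcLE`, **`jTop_eq_bcE`** : `jTop x = ofMul (bcE c0 E (bcLE c0 E (Fam.d S E.L hle x)))`
        for every `E : NLevel p K` with `S.L₀ ≤ E.L` (the `hj` of `ADPe93.completionAbove`);
* (iv)  **`jTop_mem_PtTop`** = `LocalGeom.j_Pt` for `Pt = Objects.PtTop c0`; `jTop_mem_picPt`.
-/
import Mathlib
import Fermat.Agent.T1B.Bridge54.IpRes
import Fermat.Agent.T1B.Bridge39.Final
import Fermat.Agent.T1B.Bridge43.ExtInjField
import Fermat.Agent.T1B.Local66.Objects

set_option autoImplicit false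
set_option linter.unusedSectionVars false
set_option linter.style.haveILetI false
set_option synthInstance.maxHeartbeats 400000
set_option maxHeartbeats 1000000

open TensorProduct AlgebraicCurve ModularCurve
open Fermat.Agent.TW.B5.Iface Fermat.Agent.RED.Interface4 Fermat.Agent.T1.HubInst98
open Fermat.Agent.T1.IntSub47 Fermat.Agent.Jac Fermat.Agent.T1.RedIface75 Fermat.Agent.T1.Red11
open Fermat.Agent.T1.PtLine75 Fermat.Agent.T1.CentresClass47
open Fermat.Agent.T1B.Local66.LocalBase Fermat.Agent.T1B.Local66.Union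
open Fermat.Agent.T1B.Local66.Objects
open Fermat.Agent.T1B.Plumb66.Inertia (Ip mem_Ip)
open Fermat.Agent.T1B.Bridge54.IpAction Fermat.Agent.T1B.Bridge54.IpInst
open Fermat.Agent.T1B.Bridge54.IpRes
open Fermat.Agent.T1B.Bridge39 Fermat.Agent.T1B.Bridge39.ChartIsoFamilyN
open Fermat.Agent.ES.P36.InertField27 (InertFixed)
open Fermat.Agent.Jac.BaseChange75
open scoped Fermat.Agent.Jac.BaseChange75

noncomputable section

namespace Fermat.Agent.T1B.Bridge54.JTop

variable {p : ℕ} [Fact p.Prime] {N : ℕ} [NeZero N] {K : IntermediateField ℚ Qbar}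
  {B0 B1 B01 : Type} [CommRing B0] [CommRing B1] [CommRing B01]
  [Algebra (Wb p K) B0] [Algebra (Wb p K) B1] [Algebra (Wb p K) B01] [Algebra B0 B01]
  [Algebra B1 B01] [IsScalarTower (Wb p K) B0 B01] [IsScalarTower (Wb p K) B1 B01]
  {c0 : TwoChart (Wb p K) B0 B1 B01}
  (Fam : ChartIsoFamilyN (padicPlace p) N K c0) (S : TorsSec N K p)

/-- `J₀(N)(ℚ̄)[p]` (= `Local66.Assembly.torsP N p`). -/
local notation "Tors" => Pic0.torsion Qbar (modularFunctionFieldBar N) p

/-! ### The bridge at a level `L` -/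

/-- The bridge computed at the level `L ⊇ S.L₀`. -/
def jLevel (L : IntermediateField ℚ Qbar) [FiniteDimensional ℚ L] [Normal ℚ L] (hle : S.L₀ ≤ L)
    (x : ↥Tors) : Atop p K c0 :=
  Additive.ofMul (bcL c0 (S.le₀.trans hle) (Fam.d S L hle x))

theorem jLevel_add (L : IntermediateField ℚ Qbar) [FiniteDimensional ℚ L] [Normal ℚ L]
    (hle : S.L₀ ≤ L) (x y : ↥Tors) :
    jLevel Fam S L hle (x + y) = jLevel Fam S L hle x + jLevel Fam S L hle y := by
  unfold jLevel
  rw [Fam.d_add S L hle x y, map_mul]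
  rfl

theorem jLevel_zero (L : IntermediateField ℚ Qbar) [FiniteDimensional ℚ L] [Normal ℚ L]
    (hle : S.L₀ ≤ L) : jLevel Fam S L hle 0 = 0 := by
  unfold jLevel
  rw [Fam.d_zero S L hle, map_one]
  rfl

/-- The bridge does not depend on the level. -/
theorem jLevel_tower (L₁ L : IntermediateField ℚ Qbar) [FiniteDimensional ℚ L₁]
    [FiniteDimensional ℚ L] [Normal ℚ L₁] [Normal ℚ L] (hle₁ : S.L₀ ≤ L₁) (hL : L₁ ≤ L)
    (x : ↥Tors) : jLevel Fam S L (hle₁.trans hL) x = jLevel Fam S L₁ hle₁ x := by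
  have h1 := Fam.d_tower S L₁ L hle₁ hL x
  have h2 := bcL_map c0 (S.le₀.trans hle₁) hL (Fam.d S L₁ hle₁ x)
  unfold jLevel
  rw [← h2]
  exact congrArg (fun z => Additive.ofMul (bcL c0 ((S.le₀.trans hle₁).trans hL) z)) h1.symm

/-! ### (i), (ii) The bridge -/

/-- **(i) The bridge** `j : J₀(N)(ℚ̄)[p] →+ A = Pic X_{ℚ̄_p}`. -/
def jTop : ↥Tors →+ Atop p K c0 :=
  haveI := S.fin₀
  haveI := S.normal₀
  { toFun := jLevel Fam S S.L₀ le_rfl
    map_zero' := jLevel_zero Fam S S.L₀ le_rfl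
    map_add' := jLevel_add Fam S S.L₀ le_rfl }

theorem jTop_apply (x : ↥Tors) :
    haveI := S.fin₀
    haveI := S.normal₀
    jTop Fam S x = jLevel Fam S S.L₀ le_rfl x := rfl

/-- **(ii)** the bridge, computed at any finite normal level `L ⊇ S.L₀`. -/
theorem jTop_eq_level (L : IntermediateField ℚ Qbar) [FiniteDimensional ℚ L] [Normal ℚ L]
    (hle : S.L₀ ≤ L) (x : ↥Tors) :
    jTop Fam S x = Additive.ofMul (bcL c0 (S.le₀.trans hle) (Fam.d S L hle x)) := by
  haveI := S.fin₀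
  haveI := S.normal₀
  exact (jLevel_tower Fam S S.L₀ L le_rfl hle x).symm

/-! ### (iii) Injectivity -/

/-- **(iii) `j` is injective** (EXT-INJ-FIELD). -/
theorem jTop_injective
    (hnt : letI := algWKbar p K; Nontrivial (Kbar p ⊗[Wb p K] B0))
    (hH0 : letI := algWKbar p K
      Fermat.Agent.T1.Red68.H0Const (c0.baseChange (Kbar p))) :
    Function.Injective (jTop Fam S) := by
  haveI := S.fin₀
  haveI := S.normal₀
  letI := algAKL (padicPlace p) (S.le₀.trans (le_refl S.L₀))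
  letI := algWKbar p K
  letI := algLKbar p S.L₀
  haveI := tower_W_L_Kbar (p := p) (S.le₀.trans (le_refl S.L₀))
  haveI := hnt
  have hinj : Function.Injective (PicX.map c0 ↥S.L₀ (Kbar p)) :=
    Fermat.Agent.T1B.Bridge43.picMap_injective_of_field c0 ↥S.L₀ (Kbar p) hH0
  intro x y hxy
  have h : (Additive.ofMul (bcL c0 (S.le₀.trans (le_refl S.L₀)) (Fam.d S S.L₀ le_rfl x)) :
      Atop p K c0) = Additive.ofMul (bcL c0 (S.le₀.trans (le_refl S.L₀)) (Fam.d S S.L₀ le_rfl y)) :=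
    hxy
  exact Fam.d_injective S S.L₀ le_rfl (hinj (Additive.ofMul.injective h))

/-! ### `j_res` -/

/-- **`LocalGeom.j_res`**: `j (res τ • x) = τ • j x` for `τ` in the inertia group. -/
theorem jTop_res (hK : InertFixed (padicPlace p) K) (τ : ↥(Ip p)) (x : JZero N)
    (hx : x ∈ Tors) (hx' : localGaloisToGlobal p (τ : Gp p) • x ∈ Tors) :
    letI := actTop c0 hK
    jTop Fam S ⟨_, hx'⟩ = τ • jTop Fam S ⟨x, hx⟩ := by
  haveI := S.fin₀
  haveI := S.normal₀
  exact bridge_res_L c0 hK (S.le₀.trans (le_refl S.L₀)) τ (chartAutRefl c0) rfl rfl rfl rfl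
    ((resL S.L₀ (localGaloisToGlobal p (τ : Gp p)) : ↥S.L₀ ≃ₐ[ℚ] ↥S.L₀) : ↥S.L₀ →+* ↥S.L₀)
    (fun _ => rfl)
    (resL_semi (padicPlace p) (S.le₀.trans (le_refl S.L₀)) (localGaloisToGlobal p (τ : Gp p))
      (res_fixes hK τ))
    (Fam.d S S.L₀ le_rfl) ⟨x, hx⟩ ⟨_, hx'⟩
    (Fam.d_galois S S.L₀ le_rfl (localGaloisToGlobal p (τ : Gp p)) (res_fixes hK τ)
      ⟨x, hx⟩ ⟨_, hx'⟩ rfl)

/-! ### (v) The bridge through the `p`-adic levels -/

section Levels

variable (c0)

/-- `W → E.L → E.E` is a tower. -/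
theorem tower_W_L_E (E : NLevel p K) :
    letI := algAKL (padicPlace p) E.leL
    letI := algWE E.lev
    letI : Algebra ↥E.L ↥E.E := (toE E.levL).toAlgebra
    IsScalarTower (Wb p K) ↥E.L ↥E.E := by
  letI := algAKL (padicPlace p) E.leL
  letI := algWE E.lev
  letI : Algebra ↥E.L ↥E.E := (toE E.levL).toAlgebra
  exact IsScalarTower.of_algebraMap_eq fun _ => Subtype.ext rfl

/-- `E.L → E.E → ℚ̄_p` is a tower. -/
theorem tower_L_E_Kbar (E : NLevel p K) :
    letI : Algebra ↥E.L ↥E.E := (toE E.levL).toAlgebra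
    letI := algLKbar p E.L
    letI := algEKbar E.E
    IsScalarTower ↥E.L ↥E.E (Kbar p) := by
  letI : Algebra ↥E.L ↥E.E := (toE E.levL).toAlgebra
  letI := algLKbar p E.L
  letI := algEKbar E.E
  exact IsScalarTower.of_algebraMap_eq fun _ => rfl

/-- **`Pic X_{E.L} → Pic X_{E.E}`**: from the number field `L` to its completion `E_L`. -/
def bcLE (E : NLevel p K) : PicL c0 E.leL →* PicE c0 E :=
  letI := algAKL (padicPlace p) E.leL
  letI := algWE E.lev
  letI : Algebra ↥E.L ↥E.E := (toE E.levL).toAlgebra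
  haveI := tower_W_L_E (p := p) (K := K) E
  PicX.map c0 ↥E.L ↥E.E

/-- `bcL` factors through the `p`-adic level. -/
theorem bcE_bcLE (E : NLevel p K) (x : PicL c0 E.leL) :
    bcE c0 E (bcLE c0 E x) = bcL c0 E.leL x := by
  letI := algAKL (padicPlace p) E.leL
  letI := algWE E.lev
  letI := algWKbar p K
  letI : Algebra ↥E.L ↥E.E := (toE E.levL).toAlgebra
  letI := algLKbar p E.L
  letI := algEKbar E.E
  haveI := tower_W_L_E (p := p) (K := K) E
  haveI := tower_W_E_Kbar E.lev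
  haveI := tower_W_L_Kbar (p := p) E.leL
  haveI := tower_L_E_Kbar (p := p) (K := K) E
  exact PicX.map_comp c0 ↥E.L ↥E.E (Kbar p) x

/-- `bcLE` maps classes of `L`-points to classes of `E`-points. -/
theorem bcLE_mem_PtFam (E : NLevel p K) {x : PicL c0 E.leL}
    (hx : letI := algAKL (padicPlace p) E.leL; x ∈ (pointClasses c0).PicPt ↥E.L) :
    bcLE c0 E x ∈ PtFam c0 E := by
  letI := algAKL (padicPlace p) E.leL
  letI := algWE E.lev
  letI : Algebra ↥E.L ↥E.E := (toE E.levL).toAlgebra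
  haveI := tower_W_L_E (p := p) (K := K) E
  exact (pointClasses c0).map_mem ↥E.L ↥E.E x hx

end Levels

/-- **(v)** the bridge through the `p`-adic level `E` (`S.L₀ ≤ E.L`). -/
theorem jTop_eq_bcE (E : NLevel p K) (hle : S.L₀ ≤ E.L) (x : ↥Tors) :
    jTop Fam S x = Additive.ofMul (bcE c0 E (bcLE c0 E (Fam.d S E.L hle x))) := by
  rw [jTop_eq_level Fam S E.L hle x]
  exact congrArg Additive.ofMul (bcE_bcLE c0 E (Fam.d S E.L hle x)).symm

/-! ### (iv) `j_Pt` -/

/-- the values of `j` are classes of `ℚ̄_p`-points. -/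
theorem jTop_mem_picPt (x : ↥Tors) :
    letI := algWKbar p K
    Additive.toMul (jTop Fam S x) ∈ (pointClasses c0).PicPt (Kbar p) := by
  haveI := S.fin₀
  haveI := S.normal₀
  exact bcL_mem_picPt c0 (S.le₀.trans (le_refl S.L₀)) (Fam.d_mem_picPt S S.L₀ le_rfl x)

/-- **(iv) `LocalGeom.j_Pt`**: the values of `j` lie in `Pt = Objects.PtTop c0`. -/
theorem jTop_mem_PtTop [Nonempty (NLevel p K)] (x : ↥Tors) : jTop Fam S x ∈ PtTop c0 := by
  haveI := S.fin₀
  haveI := S.normal₀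
  obtain ⟨E, hle⟩ : ∃ E : NLevel p K, S.L₀ ≤ E.L :=
    ⟨NLevel.ofField S.L₀ S.le₀, le_refl S.L₀⟩
  refine ⟨E, bcLE c0 E (Fam.d S E.L hle x), bcLE_mem_PtFam c0 E (Fam.d_mem_picPt S E.L hle x), ?_⟩
  exact (jTop_eq_bcE Fam S E hle x).symm

end Fermat.Agent.T1B.Bridge54.JTop
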