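/-
Programme T1B (row 38 via S44), cell J-BRIDGE (owner helper66), leaf "hnt" (helper54):
**`Ω ⊗[W] B` is nontrivial** for a field `Ω` over a domain `W` and a `W`-algebra `B` with
`W → B` injective (the hypothesis `hnt : Nontrivial (Kbar p ⊗[Wb p K] B0)` of `jTop_injective`,
`jAll_injective`, EXT-INJ-FIELD, …).

GENERIC (Mathlib only):
* `nontrivial_tensor_of_fieldExt` : `k ⊆ Ω` fields over `W`, `Nontrivial (k ⊗[W] B) → Nontrivial (Ω ⊗[W] B)`
  (a `k`-linear retraction `Ω → k`);
* `nontrivial_fracTensor` : `k = Frac W`, `W → B` injective `⇒ Nontrivial (k ⊗[W] B)` (flatness of `k`);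
* **`nontrivial_fieldTensor`** : `W` a domain, `Ω` a field, `W → Ω` and `W → B` injective
  `⇒ Nontrivial (Ω ⊗[W] B)`;
* `nontrivial_tensor_of_algHom` : `A → A'` any `W`-algebra map, `Nontrivial (A' ⊗[W] B) → Nontrivial (A ⊗[W] B)`;
* `algebraMap_subalgebra_injective` : `W → S` is injective for a subalgebra `S` of a `W`-algebra `F`
  with `W → F` injective (the charts `B_j ⊂ F` of the hubs).

INSTANCES on `Local66/LocalBase` (`W = Wb p K`, `hB : Function.Injective (algebraMap W B)`):
`nontrivial_Kbar_tensor`, `nontrivial_E_tensor h`, `nontrivial_O_tensor h`, `nontrivial_K_tensor`,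
`nontrivial_L_tensor hle`.
-/
import Mathlib
import Fermat.Agent.T1B.Local66.LocalBase

set_option autoImplicit false
set_option linter.unusedSectionVars false
set_option linter.style.haveILetI false

open TensorProduct

noncomputable section

namespace Fermat.Agent.T1B.Bridge54.NontrivTensor

/-! ### Generic lemmas -/

section Generic

universe u v w x

variable (W : Type u) [CommRing W]

/-- **Field extensions**: if `k ⊗[W] B ≠ 0` then `Ω ⊗[W] B ≠ 0` for every field extension `Ω / k`
(compatible `W`-algebra structures). -/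
theorem nontrivial_tensor_of_fieldExt (k : Type v) (Ω : Type w) (B : Type x) [Field k] [Field Ω]
    [CommRing B] [Algebra W k] [Algebra W Ω] [Algebra k Ω] [IsScalarTower W k Ω] [Algebra W B]
    [h : Nontrivial (k ⊗[W] B)] : Nontrivial (Ω ⊗[W] B) := by
  obtain ⟨f, hf⟩ := LinearMap.exists_leftInverse_of_injective (Algebra.linearMap k Ω)
    (LinearMap.ker_eq_bot.2 (algebraMap k Ω).injective)
  have hf1 : f 1 = 1 := by
    have h1 := LinearMap.congr_fun hf (1 : k)
    rw [LinearMap.comp_apply, Algebra.linearMap_apply, map_one, LinearMap.id_apply] at h1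
    exact h1
  let g : Ω ⊗[W] B →ₗ[W] k ⊗[W] B := TensorProduct.map (f.restrictScalars W) LinearMap.id
  have hg : g ((1 : Ω) ⊗ₜ[W] (1 : B)) = (1 : k) ⊗ₜ[W] (1 : B) := by
    show TensorProduct.map (f.restrictScalars W) LinearMap.id ((1 : Ω) ⊗ₜ[W] (1 : B)) = _
    rw [TensorProduct.map_tmul, LinearMap.restrictScalars_apply, hf1, LinearMap.id_apply]
  refine ⟨⟨1, 0, fun h0 => ?_⟩⟩
  have h1 : g (1 : Ω ⊗[W] B) = g 0 := congrArg g h0
  rw [Algebra.TensorProduct.one_def, hg, map_zero, ← Algebra.TensorProduct.one_def] at h1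
  exact one_ne_zero h1

/-- **The fraction field**: `Frac W ⊗[W] B ≠ 0` if `W → B` is injective. -/
theorem nontrivial_fracTensor (k : Type v) (B : Type x) [Field k] [CommRing B] [Algebra W k]
    [IsFractionRing W k] [Algebra W B] (hB : Function.Injective (algebraMap W B)) :
    Nontrivial (k ⊗[W] B) := by
  haveI : Module.Flat W k := IsLocalization.flat k (nonZeroDivisors W)
  have hinj : Function.Injective ((Algebra.linearMap W B).lTensor k) :=
    Module.Flat.lTensor_preserves_injective_linearMap (M := k) (Algebra.linearMap W B) hB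
  refine ⟨⟨1, 0, fun h0 => ?_⟩⟩
  have h1 : (Algebra.linearMap W B).lTensor k ((1 : k) ⊗ₜ[W] (1 : W)) = 0 := by
    rw [LinearMap.lTensor_tmul, Algebra.linearMap_apply, map_one, ← Algebra.TensorProduct.one_def]
    exact h0
  have h2 : (1 : k) ⊗ₜ[W] (1 : W) = 0 := hinj (by rw [h1, map_zero])
  have h3 := congrArg (TensorProduct.rid W k) h2
  rw [TensorProduct.rid_tmul, one_smul, map_zero] at h3
  exact one_ne_zero h3

/-- **`Ω ⊗[W] B ≠ 0`** for a domain `W`, a field `Ω` with `W → Ω` injective and a `W`-algebra `B`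
with `W → B` injective. -/
theorem nontrivial_fieldTensor [IsDomain W] (Ω : Type w) (B : Type x) [Field Ω] [CommRing B]
    [Algebra W Ω] [Algebra W B] (hΩ : Function.Injective (algebraMap W Ω))
    (hB : Function.Injective (algebraMap W B)) : Nontrivial (Ω ⊗[W] B) := by
  letI : Algebra (FractionRing W) Ω := (IsFractionRing.lift hΩ).toAlgebra
  haveI : IsScalarTower W (FractionRing W) Ω :=
    IsScalarTower.of_algebraMap_eq fun x => (IsFractionRing.lift_algebraMap hΩ x).symm
  haveI := nontrivial_fracTensor W (FractionRing W) B hB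
  exact nontrivial_tensor_of_fieldExt W (FractionRing W) Ω B

/-- Nontriviality descends along any `W`-algebra map `A → A'`. -/
theorem nontrivial_tensor_of_algHom {A : Type v} {A' : Type w} (B : Type x) [CommRing A]
    [CommRing A'] [CommRing B] [Algebra W A] [Algebra W A'] [Algebra W B] (f : A →ₐ[W] A')
    [Nontrivial (A' ⊗[W] B)] : Nontrivial (A ⊗[W] B) :=
  (Algebra.TensorProduct.map f (AlgHom.id W B)).toRingHom.domain_nontrivial

/-- `W → S` is injective for a subalgebra `S` of a `W`-algebra `F` with `W → F` injective. -/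
theorem algebraMap_subalgebra_injective {F : Type v} [CommRing F] [Algebra W F]
    (hF : Function.Injective (algebraMap W F)) (S : Subalgebra W F) :
    Function.Injective (algebraMap W ↥S) := fun _ _ hab =>
  hF (congrArg (fun z : ↥S => (z : F)) hab)

/-- `W → F` is injective for a field `F` over `k = Frac W` (tower `W → k → F`). -/
theorem algebraMap_injective_of_tower (k : Type v) (F : Type w) [Field k] [Field F] [Algebra W k]
    [Algebra W F] [Algebra k F] [IsScalarTower W k F] (hk : Function.Injective (algebraMap W k)) :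
    Function.Injective (algebraMap W F) := by
  rw [IsScalarTower.algebraMap_eq W k F]
  exact (algebraMap k F).injective.comp hk

end Generic

/-! ### The local base -/

section Local

open Fermat.Agent.TW.B5.Iface Fermat.Agent.RED.Interface4 Fermat.Agent.T1.HubInst98
open Fermat.Agent.T1.IntSub47 Fermat.Agent.T1B.Local66.LocalBase

variable {p : ℕ} [Fact p.Prime] {K : IntermediateField ℚ Qbar}
  (B : Type) [CommRing B] [Algebra (Wb p K) B]

theorem algebraMap_W_K_injective : Function.Injective (algebraMap (Wb p K) ↥K) :=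
  Subtype.val_injective

/-- **`hnt`**: `ℚ̄_p ⊗[W] B ≠ 0`. -/
theorem nontrivial_Kbar_tensor (hB : Function.Injective (algebraMap (Wb p K) B)) :
    letI := algWKbar p K
    Nontrivial (Kbar p ⊗[Wb p K] B) := by
  letI := algWKbar p K
  exact nontrivial_fieldTensor (Wb p K) (Kbar p) B (iotaW_injective p K) hB

/-- `E ⊗[W] B ≠ 0` for a level `E`. -/
theorem nontrivial_E_tensor {E : IntermediateField ℚ_[p] (Kbar p)} (h : IsLevel p K E)
    (hB : Function.Injective (algebraMap (Wb p K) B)) :
    letI := algWE h
    Nontrivial (↥E ⊗[Wb p K] B) := by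
  letI := algWE h
  refine nontrivial_fieldTensor (Wb p K) ↥E B ?_ hB
  exact (toE h).injective.comp (algebraMap_W_K_injective (p := p) (K := K))

/-- `O_E ⊗[W] B ≠ 0` for a level `E`. -/
theorem nontrivial_O_tensor {E : IntermediateField ℚ_[p] (Kbar p)} (h : IsLevel p K E)
    (hB : Function.Injective (algebraMap (Wb p K) B)) :
    letI := algWO h
    Nontrivial (↥(intSubring p E) ⊗[Wb p K] B) := by
  letI := algWO h
  letI := algWE h
  letI := algOE E
  haveI := tower_W_O_E h
  haveI := nontrivial_E_tensor B h hB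
  exact nontrivial_tensor_of_algHom (Wb p K) B
    (IsScalarTower.toAlgHom (Wb p K) ↥(intSubring p E) ↥E)

/-- `K ⊗[W] B ≠ 0`. -/
theorem nontrivial_K_tensor (hB : Function.Injective (algebraMap (Wb p K) B)) :
    Nontrivial (↥K ⊗[Wb p K] B) :=
  nontrivial_fieldTensor (Wb p K) ↥K B (algebraMap_W_K_injective (p := p) (K := K)) hB

/-- `L ⊗[W] B ≠ 0` for a number field `L ⊇ K`. -/
theorem nontrivial_L_tensor {L : IntermediateField ℚ Qbar} (hle : K ≤ L)
    (hB : Function.Injective (algebraMap (Wb p K) B)) :
    letI := algAKL (padicPlace p) hle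
    Nontrivial (↥L ⊗[Wb p K] B) := by
  letI := algAKL (padicPlace p) hle
  refine nontrivial_fieldTensor (Wb p K) ↥L B ?_ hB
  intro a b hab
  apply Subtype.ext
  apply Subtype.ext
  exact congrArg (fun z : ↥L => (z : Qbar)) hab

end Local

end Fermat.Agent.T1B.Bridge54.NontrivTensor
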